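/-
S37 / S18 support: the bounded-hom lemma (helper231).

A homomorphism `δ : Divisor K F →+ (ι →₀ ℤ)` which kills principal divisors and is bounded on places
vanishes on divisors of degree zero, as soon as a Riemann-type inequality holds for `F`
(every divisor of degree `γ` is linearly equivalent to an effective one) and all places have
degree one.  No divisibility of `Pic⁰` is needed.
-/
import Fermat.Prelude.Def_AlgebraicCurve_DivisorClassGroup

set_option autoImplicit false

namespace Fermat.Agent.S37.BH

open AlgebraicCurve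

variable {K F : Type*} [Field K] [Field F] [Algebra K F]

/-- The degree of a divisor is the sum of its coefficients when all places have degree one. -/
theorem degree_eq_sum (hdeg : ∀ v : Place K F, v.deg = 1) (E : Divisor K F) :
    Divisor.degree E = E.sum fun _ n => n := by
  induction E using Finsupp.induction with
  | zero => simp
  | single_add v n E hv hn ih =>
    rw [map_add, ih, Divisor.degree_single, hdeg, Finsupp.sum_add_index' (by simp) (by simp),
      Finsupp.sum_single_index (by simp)]
    simp

/-- Coordinatewise bound for the image of an effective divisor. -/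
theorem abs_apply_le_of_effective {ι : Type*} (δ : Divisor K F →+ (ι →₀ ℤ))
    (B : ℤ) (hB : ∀ (v : Place K F) (i : ι), |δ (Finsupp.single v 1) i| ≤ B)
    (E : Divisor K F) (hE : ∀ v, 0 ≤ E v) (i : ι) :
    |δ E i| ≤ (E.sum fun _ n => n) * B := by
  induction E using Finsupp.induction with
  | zero => simp
  | single_add v n E hv hn ih =>
    have hn0 : 0 ≤ n := by
      have := hE v
      simpa [Finsupp.add_apply, Finsupp.notMem_support_iff.mp hv] using this
    have hE' : ∀ w, 0 ≤ E w := by
      intro w
      by_cases hw : w = v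
      · subst hw; simp [Finsupp.notMem_support_iff.mp hv]
      · have := hE w
        simpa [Finsupp.add_apply, Finsupp.single_apply, Ne.symm hw] using this
    have hsingle : δ (Finsupp.single v n) = n • δ (Finsupp.single v 1) := by
      rw [← map_zsmul, Finsupp.smul_single, smul_eq_mul, mul_one]
    rw [map_add, Finsupp.add_apply, Finsupp.sum_add_index' (by simp) (by simp),
      Finsupp.sum_single_index (by simp), add_mul]
    refine (abs_add_le _ _).trans (add_le_add ?_ (ih hE'))
    rw [hsingle, Finsupp.smul_apply, smul_eq_mul, abs_mul, abs_of_nonneg hn0]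
    exact mul_le_mul_of_nonneg_left (hB v i) hn0

/-- **Bounded-hom lemma.**  `γ`: a degree in which every divisor is equivalent to an effective one
(Riemann's inequality, `γ ≥ g`). -/
theorem eq_zero_of_bounded {ι : Type*} (δ : Divisor K F →+ (ι →₀ ℤ))
    (hdeg : ∀ v : Place K F, v.deg = 1) (γ : ℕ)
    (hR : ∀ D : Divisor K F, Divisor.degree D = γ →
      ∃ E : Divisor K F, (∀ v, 0 ≤ E v) ∧ E - D ∈ Divisor.principal (K := K) (F := F))
    (hp0 : ∀ D ∈ Divisor.principal (K := K) (F := F), Divisor.degree D = 0)
    (hprin : ∀ D ∈ Divisor.principal (K := K) (F := F), δ D = 0)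
    (B : ℤ) (hB : ∀ (v : Place K F) (i : ι), |δ (Finsupp.single v 1) i| ≤ B)
    (D : Divisor K F) (hD : Divisor.degree D = 0) : δ D = 0 := by
  classical
  rcases isEmpty_or_nonempty (Place K F) with hempty | ⟨⟨P₀⟩⟩
  · have : D = 0 := Finsupp.ext fun v => (hempty.false v).elim
    rw [this, map_zero]
  ext i
  rw [Finsupp.zero_apply]
  have hB0 : 0 ≤ B := (abs_nonneg _).trans (hB P₀ i)
  -- for every natural `n`: `|n * δ D i| ≤ 2 γ B`
  have key : ∀ n : ℕ, |(n : ℤ) * δ D i| ≤ 2 * γ * B := by
    intro n
    set D' : Divisor K F := n • D + Finsupp.single P₀ (γ : ℤ) with hD'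
    have hdegD' : Divisor.degree D' = γ := by
      rw [hD', map_add, map_nsmul, hD, Divisor.degree_single, hdeg]
      simp
    obtain ⟨E, hE, hEp⟩ := hR D' hdegD'
    have hdegE : Divisor.degree E = γ := by
      have h0 := hp0 _ hEp
      rw [map_sub, hdegD'] at h0
      linarith
    have hδE : δ E = δ D' := by
      have h0 := hprin _ hEp
      rw [map_sub, sub_eq_zero] at h0
      exact h0
    have hsingle : δ (Finsupp.single P₀ (γ : ℤ)) = (γ : ℤ) • δ (Finsupp.single P₀ 1) := by
      rw [← map_zsmul, Finsupp.smul_single, smul_eq_mul, mul_one]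
    have h1 : δ E i = (n : ℤ) * δ D i + (γ : ℤ) * δ (Finsupp.single P₀ 1) i := by
      rw [hδE, hD', map_add, map_nsmul, hsingle, Finsupp.add_apply, Finsupp.smul_apply,
        Finsupp.smul_apply, nsmul_eq_mul, smul_eq_mul]
    have h2 : |δ E i| ≤ γ * B := by
      have := abs_apply_le_of_effective δ B hB E hE i
      rwa [← degree_eq_sum hdeg, hdegE] at this
    have h3 : |(γ : ℤ) * δ (Finsupp.single P₀ 1) i| ≤ γ * B := by
      rw [abs_mul, abs_of_nonneg (Int.natCast_nonneg γ)]
      exact mul_le_mul_of_nonneg_left (hB P₀ i) (Int.natCast_nonneg γ)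
    have h4 : (n : ℤ) * δ D i = δ E i - (γ : ℤ) * δ (Finsupp.single P₀ 1) i := by
      rw [h1]; ring
    rw [h4]
    calc |δ E i - (γ : ℤ) * δ (Finsupp.single P₀ 1) i|
        ≤ |δ E i| + |(γ : ℤ) * δ (Finsupp.single P₀ 1) i| := abs_sub _ _
      _ ≤ γ * B + γ * B := add_le_add h2 h3
      _ = 2 * γ * B := by ring
  by_contra hne
  have hM0 : (0 : ℤ) ≤ 2 * γ * B := by positivity
  have hk := key ((2 * γ * B).toNat + 1)
  rw [abs_mul] at hk
  have h1 : (1 : ℤ) ≤ |δ D i| := Int.one_le_abs hne
  have hn : |(((2 * (γ : ℤ) * B).toNat + 1 : ℕ) : ℤ)| = 2 * γ * B + 1 := by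
    rw [abs_of_nonneg (Int.natCast_nonneg _)]
    push_cast
    rw [Int.toNat_of_nonneg hM0]
  rw [hn] at hk
  nlinarith

/-- Two homomorphisms that agree on principal divisors and are bounded on places agree on
divisors of degree zero. -/
theorem eq_of_agree_of_bounded {ι : Type*} (f g : Divisor K F →+ (ι →₀ ℤ))
    (hdeg : ∀ v : Place K F, v.deg = 1) (γ : ℕ)
    (hR : ∀ D : Divisor K F, Divisor.degree D = γ →
      ∃ E : Divisor K F, (∀ v, 0 ≤ E v) ∧ E - D ∈ Divisor.principal (K := K) (F := F))
    (hp0 : ∀ D ∈ Divisor.principal (K := K) (F := F), Divisor.degree D = 0)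
    (hprin : ∀ D ∈ Divisor.principal (K := K) (F := F), f D = g D)
    (Bf Bg : ℤ) (hBf : ∀ (v : Place K F) (i : ι), |f (Finsupp.single v 1) i| ≤ Bf)
    (hBg : ∀ (v : Place K F) (i : ι), |g (Finsupp.single v 1) i| ≤ Bg)
    (D : Divisor K F) (hD : Divisor.degree D = 0) : f D = g D := by
  have h := eq_zero_of_bounded (f - g) hdeg γ hR hp0
    (fun D hD => by rw [AddMonoidHom.sub_apply, hprin D hD, sub_self]) (Bf + Bg)
    (fun v i => by
      rw [AddMonoidHom.sub_apply, Finsupp.sub_apply]
      exact (abs_sub _ _).trans (add_le_add (hBf v i) (hBg v i))) D hD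
  rwa [AddMonoidHom.sub_apply, sub_eq_zero] at h

/-- Special case: push-forward of divisors along two maps of places.  If the two push-forwards
agree on principal divisors they agree on all divisors of degree zero. -/
theorem mapDomain_eq_of_agree {K' F' : Type*} [Field K'] [Field F'] [Algebra K' F']
    (r₁ r₂ : Place K F → Place K' F')
    (hdeg : ∀ v : Place K F, v.deg = 1) (γ : ℕ)
    (hR : ∀ D : Divisor K F, Divisor.degree D = γ →
      ∃ E : Divisor K F, (∀ v, 0 ≤ E v) ∧ E - D ∈ Divisor.principal (K := K) (F := F))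
    (hp0 : ∀ D ∈ Divisor.principal (K := K) (F := F), Divisor.degree D = 0)
    (hprin : ∀ D ∈ Divisor.principal (K := K) (F := F),
      Finsupp.mapDomain r₁ D = Finsupp.mapDomain r₂ D)
    (D : Divisor K F) (hD : Divisor.degree D = 0) :
    Finsupp.mapDomain r₁ D = Finsupp.mapDomain r₂ D := by
  classical
  have hb : ∀ (r : Place K F → Place K' F') (v : Place K F) (i : Place K' F'),
      |(Finsupp.mapDomain.addMonoidHom r : Divisor K F →+ Divisor K' F') (Finsupp.single v 1) i|
        ≤ 1 := by
    intro r v i
    rw [Finsupp.mapDomain.addMonoidHom_apply, Finsupp.mapDomain_single, Finsupp.single_apply]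
    split_ifs <;> simp
  exact eq_of_agree_of_bounded (Finsupp.mapDomain.addMonoidHom r₁)
    (Finsupp.mapDomain.addMonoidHom r₂) hdeg γ hR hp0 hprin 1 1 (hb r₁) (hb r₂) D hD

end Fermat.Agent.S37.BH
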