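import Fermat.Agent.S37.Aut
import Fermat.Agent.S37.BoundedHom
import Fermat.Agent.S37.Leaf.RIEM
import Fermat.Agent.S37.Leaf.KRON
import Fermat.Agent.S37.Leaf.HI
import Fermat.Agent.S37.ES.Modular

/-!
# S37 node ES: the Eichler–Shimura congruence on `Pic0`

`ℓ ∤ N` prime, `A` over `ℓ`, `Fr := coeffAut k N τ` with `τ` the Frobenius `x ↦ x^ℓ` of `k`:

    red (T_ℓ x) = Fr • red x + ℓ • Fr⁻¹ • red x        on `JZero N`.

Proof (helper231 §2): by leaf HI, `T_ℓ = heckePic0Bar` = the correspondence `α_* β^*`; on a principal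
divisor `T_ℓ(div f) = div(Norm_α(β f))` (Prelude `ord_restrict` + `NormFormulaAlong`); for `f` with
`A`-integral `q`-expansion and nonzero reduction in `Fb`, leaf KRON + `H2` give
`r_* T_ℓ (div f) = div((τ⁻¹ fbar)^ℓ * τ fbar) = (Fr + ℓ Fr⁻¹) r_*(div f)`.  Both sides are bounded on
places (by `ℓ + 1`: `degree_correspondence`), so they agree on `Div⁰` by `BH.eq_of_agree_of_bounded`
+ leaf RIEM (after `PrincipalGeneratedByIntegral`).

FROZEN STATEMENT (package ES), PROVED (helper9403) from the leaves RIEM, KRON, HI through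
`Fermat/Agent/S37/ES/{Generic,Modular}.lean` (this file and that library add no new gaps).
-/

set_option autoImplicit false

namespace Fermat.Agent.S37

open ModularCurve AlgebraicCurve

set_option synthInstance.maxHeartbeats 400000 in
theorem red_hecke (N : ℕ) [NeZero N] (ℓ : ℕ) (hℓ : ℓ.Prime) (hℓN : ¬ ℓ ∣ N)
    (A : ValuationSubring (AlgebraicClosure ℚ)) (hA : A.LiesOverPrime ℓ)
    (h : ReductionInputsModL A N)
    (τ : IsLocalRing.ResidueField A ≃+* IsLocalRing.ResidueField A) (hτ : ∀ x, τ x = x ^ ℓ)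
    (x : JZero N) :
    reductionModL A N (heckeOperatorBar N ⟨ℓ, hℓ⟩ x) =
      coeffAut (IsLocalRing.ResidueField A) N τ • reductionModL A N x +
        ℓ • ((coeffAut (IsLocalRing.ResidueField A) N τ)⁻¹ • reductionModL A N x) := by
  have : NeZero ℓ := ⟨hℓ.ne_zero⟩
  obtain ⟨hdeg, hp0, γ, hR⟩ := riemann_modular N
  have hK : ES.KroneckerCongruence A N ℓ (coeffAut (IsLocalRing.ResidueField A) N τ) := by
    intro y hy hyk hne
    obtain ⟨y', h1, h2⟩ := kron N ℓ hℓ hℓN A hA τ hτ y hy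
    refine ⟨y', h1, ?_⟩
    rw [h2, ← map_inv]
    rfl
  exact ES.reductionModL_heckeOperatorAlong h (heckeInputs N ℓ) hK hdeg γ hR hp0 x

end Fermat.Agent.S37
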