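import Fermat.Agent.S37.Aut
import Fermat.Agent.S37.BoundedHom
import Fermat.Agent.S37.Leaf.RIEM
import Fermat.Prelude.Def_FLTPrelim_Ramification

/-!
# S37 node GAL: the reduction map commutes with the decomposition group

For `σ` in the decomposition group of `A`, with `σbar` the induced automorphism of the residue
field `k`:   `red (σ • x) = σbar • red x`   on `JZero N`
(`σbar` acting on `JZeroC k N` through `coeffAut`, i.e. coefficientwise on `q`-expansions).

Proof (helper231 §1): both sides come from additive maps `Div(F) → Div(Fb)` that are bounded on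
places and agree on integral principal divisors (`H2` for `coeffMap σ y`; `coeffMap` commutes with
`σ` / `σbar`), hence on all principal divisors (`PrincipalGeneratedByIntegral`), hence on `Div⁰`
(bounded-hom lemma `BH.eq_of_agree_of_bounded` + leaf RIEM).

FROZEN STATEMENT (package GAL), proved below (delivery by helper3111): the abstract intertwining
lemmas (`GAL.*`, after helper231's `GalCompat`) and the concrete compatibility for the
decomposition group are in this file; the only non-Prelude inputs are `BH.mapDomain_eq_of_agree`,
`coeffAut` and the leaf `riemann_modular`.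
-/

set_option autoImplicit false

namespace Fermat.Agent.S37

open ModularCurve AlgebraicCurve

namespace GAL

section Abstract

variable {L : Type*} [Field L] [Algebra ℚ L] {A : ValuationSubring L}
variable {k : Type*} [Field k] {π : A →+* k} {N : ℕ}
variable {r : Place L (laurentBaseChange L (modularFunctionFieldFull N)) →
  Place k (modularFunctionFieldFullC k N)}

/-- Compatibility of a pair of semilinear automorphisms with an operation `τ` on integral
series. -/
structure Compat (π : A →+* k)
    (g : SemilinearAut L (laurentBaseChange L (modularFunctionFieldFull N)))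
    (gk : SemilinearAut k (modularFunctionFieldFullC k N))
    (τ : LaurentSeries A → LaurentSeries A) : Prop where
  char_zero : ∀ (y : LaurentSeries A)
    (hy : coeffMap A.subtype y ∈ laurentBaseChange L (modularFunctionFieldFull N)),
    ∃ hy' : coeffMap A.subtype (τ y) ∈ laurentBaseChange L (modularFunctionFieldFull N),
      g • (⟨coeffMap A.subtype y, hy⟩ : laurentBaseChange L (modularFunctionFieldFull N))
        = ⟨coeffMap A.subtype (τ y), hy'⟩
  residue : ∀ (y : LaurentSeries A) (hyk : coeffMap π y ∈ modularFunctionFieldFullC k N),
    ∃ hyk' : coeffMap π (τ y) ∈ modularFunctionFieldFullC k N,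
      gk • (⟨coeffMap π y, hyk⟩ : modularFunctionFieldFullC k N) = ⟨coeffMap π (τ y), hyk'⟩

variable {g : SemilinearAut L (laurentBaseChange L (modularFunctionFieldFull N))}
  {gk : SemilinearAut k (modularFunctionFieldFullC k N)} {τ : LaurentSeries A → LaurentSeries A}

theorem ord_smul_eq {K F : Type*} [Field K] [Field F] [Algebra K F] (h : SemilinearAut K F)
    (w : Place K F) (f : F) : w.ord (h • f) = (h⁻¹ • w).ord f := by
  have := SemilinearAut.ord_smul h (h⁻¹ • w) f
  rwa [smul_inv_smul] at this

/-- On integral principal divisors, `r` intertwines `g` and `gk`. -/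
theorem mapDomain_smul_of_integral (hr : IsPlaceReductionAlong A π N r) (hc : Compat π g gk τ)
    {D : Divisor L (laurentBaseChange L (modularFunctionFieldFull N))}
    (hD : D ∈ integralPrincipalDivisors A π N) :
    Finsupp.mapDomain r (g • D) = gk • Finsupp.mapDomain r D := by
  obtain ⟨y, hy, hyk, hne, hDy⟩ := hD
  obtain ⟨hy', e1⟩ := hc.char_zero y hy
  obtain ⟨hyk', e2⟩ := hc.residue y hyk
  have hne' : coeffMap π (τ y) ≠ 0 := by
    intro h0
    have h1 : gk • (⟨coeffMap π y, hyk⟩ : modularFunctionFieldFullC k N) = 0 := by
      rw [e2]; exact Subtype.ext h0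
    rw [smul_eq_zero_iff_eq] at h1
    exact hne (congrArg Subtype.val h1)
  have hgD : ∀ P, (g • D) P = P.ord (⟨coeffMap A.subtype (τ y), hy'⟩ :
      laurentBaseChange L (modularFunctionFieldFull N)) := by
    intro P
    rw [SemilinearAut.divisor_smul_apply, hDy, ← e1, ord_smul_eq]
  ext Q
  rw [hr.2 (τ y) hy' hyk' hne' (g • D) hgD Q, SemilinearAut.divisor_smul_apply,
    hr.2 y hy hyk hne D hDy (gk⁻¹ • Q), ← e2, ord_smul_eq]

/-- On all principal divisors. -/
theorem mapDomain_smul_of_principal (hr : IsPlaceReductionAlong A π N r)
    (hgen : PrincipalGeneratedByIntegral A π N) (hc : Compat π g gk τ)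
    {D : Divisor L (laurentBaseChange L (modularFunctionFieldFull N))}
    (hD : D ∈ Divisor.principal (K := L) (F := laurentBaseChange L (modularFunctionFieldFull N))) :
    Finsupp.mapDomain r (g • D) = gk • Finsupp.mapDomain r D := by
  set f₁ : Divisor L (laurentBaseChange L (modularFunctionFieldFull N)) →+
      Divisor k (modularFunctionFieldFullC k N) :=
    (Finsupp.mapDomain.addMonoidHom r).comp (DistribSMul.toAddMonoidHom _ g) with hf₁
  set f₂ : Divisor L (laurentBaseChange L (modularFunctionFieldFull N)) →+
      Divisor k (modularFunctionFieldFullC k N) :=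
    (DistribSMul.toAddMonoidHom _ gk).comp (Finsupp.mapDomain.addMonoidHom r) with hf₂
  suffices h : f₁ D = f₂ D from h
  have hD' := hgen hD
  clear hD
  induction hD' using AddSubgroup.closure_induction with
  | mem E hE => exact mapDomain_smul_of_integral hr hc hE
  | zero => rw [map_zero, map_zero]
  | add E E' _ _ hE hE' => rw [map_add, map_add, hE, hE']
  | neg E _ hE => rw [map_neg, map_neg, hE]

/-- Divisor level: on divisors of degree zero `r_*` intertwines `g` and `gk`. -/
theorem mapDomain_smul_of_degree_zero (hr : IsPlaceReductionAlong A π N r)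
    (hgen : PrincipalGeneratedByIntegral A π N) (hc : Compat π g gk τ)
    (hdeg : ∀ v : Place L (laurentBaseChange L (modularFunctionFieldFull N)), v.deg = 1) (γ : ℕ)
    (hR : ∀ D : Divisor L (laurentBaseChange L (modularFunctionFieldFull N)), Divisor.degree D = γ →
      ∃ E : Divisor L (laurentBaseChange L (modularFunctionFieldFull N)), (∀ v, 0 ≤ E v) ∧
        E - D ∈ Divisor.principal (K := L) (F := laurentBaseChange L (modularFunctionFieldFull N)))
    (hp0 : ∀ D ∈ Divisor.principal (K := L) (F := laurentBaseChange L (modularFunctionFieldFull N)),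
      Divisor.degree D = 0)
    (D : Divisor L (laurentBaseChange L (modularFunctionFieldFull N))) (hD : Divisor.degree D = 0) :
    Finsupp.mapDomain r (g • D) = gk • Finsupp.mapDomain r D := by
  set r' : Place L (laurentBaseChange L (modularFunctionFieldFull N)) →
      Place k (modularFunctionFieldFullC k N) := fun P => gk⁻¹ • r (g • P) with hr'
  have hcomp : ∀ E : Divisor L (laurentBaseChange L (modularFunctionFieldFull N)),
      Finsupp.mapDomain r' E = gk⁻¹ • Finsupp.mapDomain r (g • E) := by
    intro E
    rw [SemilinearAut.divisor_smul_def, SemilinearAut.divisor_smul_def, ← Finsupp.mapDomain_comp,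
      ← Finsupp.mapDomain_comp]
    rfl
  have hagree : ∀ E ∈ Divisor.principal (K := L)
      (F := laurentBaseChange L (modularFunctionFieldFull N)),
      Finsupp.mapDomain r' E = Finsupp.mapDomain r E := by
    intro E hE
    rw [hcomp, mapDomain_smul_of_principal hr hgen hc hE, inv_smul_smul]
  have h := BH.mapDomain_eq_of_agree r' r hdeg γ hR hp0 hagree D hD
  rw [hcomp] at h
  rw [← h, smul_inv_smul]

/-- `Pic⁰` level. -/
theorem reductionPic0Along_smul (hr : IsPlaceReductionAlong A π N r)
    (hgen : PrincipalGeneratedByIntegral A π N) (hc : Compat π g gk τ)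
    (hdeg : ∀ v : Place L (laurentBaseChange L (modularFunctionFieldFull N)), v.deg = 1) (γ : ℕ)
    (hR : ∀ D : Divisor L (laurentBaseChange L (modularFunctionFieldFull N)), Divisor.degree D = γ →
      ∃ E : Divisor L (laurentBaseChange L (modularFunctionFieldFull N)), (∀ v, 0 ≤ E v) ∧
        E - D ∈ Divisor.principal (K := L) (F := laurentBaseChange L (modularFunctionFieldFull N)))
    (hp0 : ∀ D ∈ Divisor.principal (K := L) (F := laurentBaseChange L (modularFunctionFieldFull N)),
      Divisor.degree D = 0)
    (x : Pic0 L (laurentBaseChange L (modularFunctionFieldFull N))) :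
    reductionPic0Along r hr hgen (g • x) = gk • reductionPic0Along r hr hgen x := by
  obtain ⟨D, rfl⟩ := Pic0.mk_surjective x
  rw [SemilinearAut.pic0_smul_mk, reductionPic0Along_mk, reductionPic0Along_mk,
    SemilinearAut.pic0_smul_mk]
  refine congrArg Pic0.mk (Subtype.ext ?_)
  rw [coe_reductionDegZeroAlong, SemilinearAut.coe_degZeroSMulHom, SemilinearAut.coe_degZeroSMulHom,
    coe_reductionDegZeroAlong]
  exact mapDomain_smul_of_degree_zero hr hgen hc hdeg γ hR hp0 D D.2

end Abstract

section Concrete

variable (A : ValuationSubring (AlgebraicClosure ℚ)) (N : ℕ) [NeZero N]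

/-- Restriction of an element of the decomposition group of `A` to `A`. -/
noncomputable def restrictA (g : A.decompositionSubgroup ℚ) : A →+* A :=
  MulSemiringAction.toRingHom (A.decompositionSubgroup ℚ) A g

set_option synthInstance.maxHeartbeats 400000 in
/-- The pair (Galois action of `g`, coefficient action of the residue automorphism of `g`) is
compatible on integral `q`-expansions, through `y ↦ coeffMap (g|_A) y`. -/
theorem compat (g : A.decompositionSubgroup ℚ) :
    Compat (N := N) (IsLocalRing.residue A)
      (arithmeticGalois (modularFunctionFieldFull N)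
        (g : AlgebraicClosure ℚ ≃ₐ[ℚ] AlgebraicClosure ℚ))
      (coeffAut (IsLocalRing.ResidueField A) N
        (MulSemiringAction.toRingAut (A.decompositionSubgroup ℚ) (IsLocalRing.ResidueField A) g))
      (coeffMap (restrictA A g)) where
  char_zero y hy := by
    have e : coeffMap A.subtype (coeffMap (restrictA A g) y) =
        coeffMap (((g : AlgebraicClosure ℚ ≃ₐ[ℚ] AlgebraicClosure ℚ)) :
          AlgebraicClosure ℚ →+* AlgebraicClosure ℚ) (coeffMap A.subtype y) := by
      rw [coeffMap_coeffMap, coeffMap_coeffMap]
      exact coeffMap_congr (RingHom.ext fun a => rfl) y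
    have hy' : coeffMap A.subtype (coeffMap (restrictA A g) y) ∈
        laurentBaseChange (AlgebraicClosure ℚ) (modularFunctionFieldFull N) := by
      rw [e]
      exact coeffMap_mem_laurentBaseChange _ hy
    refine ⟨hy', Subtype.ext ?_⟩
    rw [coe_arithmeticGalois_smul]
    exact e.symm
  residue y hyk := by
    have e : coeffMap (IsLocalRing.residue A) (coeffMap (restrictA A g) y) =
        coeffMap ((MulSemiringAction.toRingAut (A.decompositionSubgroup ℚ)
            (IsLocalRing.ResidueField A) g :
            IsLocalRing.ResidueField A ≃+* IsLocalRing.ResidueField A) :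
          IsLocalRing.ResidueField A →+* IsLocalRing.ResidueField A)
          (coeffMap (IsLocalRing.residue A) y) := by
      rw [coeffMap_coeffMap, coeffMap_coeffMap]
      exact coeffMap_congr (RingHom.ext fun a => rfl) y
    have hyk' : coeffMap (IsLocalRing.residue A) (coeffMap (restrictA A g) y) ∈
        modularFunctionFieldFullC (IsLocalRing.ResidueField A) N := by
      rw [e]
      exact coeffMap_mem_fullC _ N _ hyk
    refine ⟨hyk', Subtype.ext ?_⟩
    rw [coe_coeffAut_smul]
    exact e.symm

end Concrete

end GAL

set_option synthInstance.maxHeartbeats 400000 in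
theorem red_galois (N : ℕ) [NeZero N] (A : ValuationSubring (AlgebraicClosure ℚ))
    (h : ReductionInputsModL A N)
    (σ : AlgebraicClosure ℚ ≃ₐ[ℚ] AlgebraicClosure ℚ) (hσ : σ ∈ A.decompositionSubgroup ℚ)
    (x : JZero N) :
    reductionModL A N (σ • x) =
      coeffAut (IsLocalRing.ResidueField A) N
        (MulSemiringAction.toRingAut (A.decompositionSubgroup ℚ) (IsLocalRing.ResidueField A)
          ⟨σ, hσ⟩) • reductionModL A N x := by
  obtain ⟨hdeg, hp0, γ, hR⟩ := riemann_modular N
  have e : reductionModL A N =
      reductionPic0Along h.choose h.choose_spec.1 h.choose_spec.2 := reductionAlong_eq h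
  rw [e]
  exact GAL.reductionPic0Along_smul h.choose_spec.1 h.choose_spec.2
    (GAL.compat A N ⟨σ, hσ⟩) hdeg γ hR hp0 x

end Fermat.Agent.S37
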