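import Fermat.Agent.S37.Abstract
import Fermat.Prelude.Def_ModularCurve_HeckeModule

/-!
# S37: the frozen statement from ONE additive map out of `JZero N`

`result_of_map`: the exact frozen statement of S37 follows from the existence, for every prime
`ℓ ∤ N p` and every valuation subring `A` of `ℚ̄` over `ℓ`, of an additive map
`φ : JZero N →+ G` (any abelian group `G`) that is

* invariant under the inertia group of `A`,
* kills `σ² x - T_ℓ (σ x) + ℓ x` for every Frobenius element `σ` at `A`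
  (`T_ℓ = heckeOperatorBar N ℓ`),
* injective on `p`-power torsion.
-/

set_option autoImplicit false

noncomputable section

namespace Fermat.Agent.S37

open ModularCurve

theorem result_of_map (N p : ℕ) [NeZero N] (hcomm : ModularCurve.HeckeOperatorsCommuteBar N)
    (h : ∀ ℓ : ℕ, (hℓ : ℓ.Prime) → ¬ ℓ ∣ N * p →
      ∀ A : ValuationSubring (AlgebraicClosure ℚ), A.LiesOverPrime ℓ →
      ∃ (G : Type) (_ : AddCommGroup G) (φ : JZero N →+ G),
        (∀ σ ∈ A.inertiaSubgroupIn ℚ, ∀ x : JZero N, φ (σ • x) = φ x) ∧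
        (∀ σ : AlgebraicClosure ℚ ≃ₐ[ℚ] AlgebraicClosure ℚ, A.IsFrobeniusAt σ ℓ → ∀ x : JZero N,
          φ (σ • σ • x - heckeOperatorBar N ⟨ℓ, hℓ⟩ (σ • x) + ℓ • x) = 0) ∧
        (∀ x : JZero N, (∃ n : ℕ, p ^ n • x = 0) → φ x = 0 → x = 0)) :
    letI := ModularCurve.heckeModuleBar N
    ∀ (_ : SMulCommClass (AlgebraicClosure ℚ ≃ₐ[ℚ] AlgebraicClosure ℚ) ModularCurve.HeckeAlg
      (ModularCurve.JZero N)),
      ModularCurve.SpecializationExists (K := ℚ) (L := AlgebraicClosure ℚ) N p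
        (ModularCurve.JZero N) := by
  let _ := ModularCurve.heckeModuleBar N
  intro _
  apply specializationExists_of_map
  intro ℓ hℓ hNp A hA
  obtain ⟨G, _, φ, h1, h2, h3⟩ := h ℓ hℓ hNp A hA
  refine ⟨G, inferInstance, φ, h1, ?_, h3⟩
  intro σ hσ x
  have e : heckeGen ⟨ℓ, hℓ⟩ • σ • x = heckeOperatorBar N ⟨ℓ, hℓ⟩ (σ • x) :=
    heckeModuleBar_heckeGen_smul hcomm ⟨ℓ, hℓ⟩ (σ • x)
  have h4 := h2 σ hσ x
  rw [← e] at h4
  exact h4

end Fermat.Agent.S37
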