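import Mathlib
import Fermat.Prelude.Def_HeckeGalois_EichlerShimura

/-!
# S37 (`SpecializationExists`): abstract reduction to ONE additive map

`SpecializationExists N p J` holds as soon as, for every prime `ℓ ∤ N p` and every valuation
subring `A` over `ℓ`, there is an additive map `φ : J →+ G` into ANY abelian group `G` (no Hecke
action on `G`, no Frobenius on `G` needed) such that

* (i)   `φ (τ • x) = φ x` for `τ` in the inertia group of `A`;
* (ii)  `φ (σ • σ • x - T_ℓ • (σ • x) + ℓ • x) = 0` for every Frobenius element `σ` at `A`;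
* (iii) `φ` is injective on `p`-power torsion.

Proof: take `J' = J ⧸ M`, `M` the Hecke submodule generated by the elements `τ • x - x` and
`σ₀ • σ₀ • x - T_ℓ • (σ₀ • x) + ℓ • x` (`σ₀` a fixed Frobenius element), with the Hecke action
induced from `J` (Hecke commutes with Galois), `sp` the quotient map and `F` induced by `σ₀`.
`M ⊆ ker φ` gives injectivity on `p`-power torsion.  (If there is no Frobenius element at all, a
formal root of `X² - T_ℓ X + ℓ` is adjoined instead.)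

In particular the reduction map does NOT have to be compatible with the Hecke operators `T_q`,
`q ≠ ℓ`: only the Eichler–Shimura congruence for `T_ℓ` itself enters, through (ii).
-/

set_option autoImplicit false

noncomputable section

namespace Fermat.Agent.S37

open ModularCurve

section Ramification

variable {K L : Type*} [Field K] [Field L] [Algebra K L]

/-- inertia is normal in the decomposition group -/
theorem conj_mem_inertiaSubgroupIn (A : ValuationSubring L) {σ τ : L ≃ₐ[K] L}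
    (hσ : σ ∈ A.decompositionSubgroup K) (hτ : τ ∈ A.inertiaSubgroupIn K) :
    σ * τ * σ⁻¹ ∈ A.inertiaSubgroupIn K := by
  obtain ⟨τ', hτ', rfl⟩ := hτ
  refine ⟨⟨σ, hσ⟩ * τ' * ⟨σ, hσ⟩⁻¹, ?_, rfl⟩
  exact (MonoidHom.normal_ker _).conj_mem τ' hτ' ⟨σ, hσ⟩

/-- two Frobenius elements differ by an element of inertia -/
theorem mul_inv_mem_inertiaSubgroupIn (A : ValuationSubring L) {σ σ₀ : L ≃ₐ[K] L} {ℓ : ℕ}
    (hσ : A.IsFrobeniusAt σ ℓ) (hσ₀ : A.IsFrobeniusAt σ₀ ℓ) :
    σ * σ₀⁻¹ ∈ A.inertiaSubgroupIn K := by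
  obtain ⟨h, hF⟩ := hσ
  obtain ⟨h₀, hF₀⟩ := hσ₀
  refine ⟨⟨σ, h⟩ * ⟨σ₀, h₀⟩⁻¹, MonoidHom.mem_ker.mpr ?_, rfl⟩
  ext x
  show (⟨σ, h⟩ * ⟨σ₀, h₀⟩⁻¹ : A.decompositionSubgroup K) • x = x
  rw [mul_smul, hF, ← hF₀, smul_inv_smul]

end Ramification

section Abstract

variable (K : Type*) {L : Type*} [Field K] [Field L] [Algebra K L]
variable (J : Type) [AddCommGroup J] [Module HeckeAlg J]
  [DistribMulAction (L ≃ₐ[K] L) J] [SMulCommClass (L ≃ₐ[K] L) HeckeAlg J]

/-- the Hecke submodule generated by `τ x - x`, `τ` in the inertia group of `A` -/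
def inertiaRel (A : ValuationSubring L) : Submodule HeckeAlg J :=
  Submodule.span HeckeAlg {y | ∃ τ ∈ A.inertiaSubgroupIn K, ∃ x : J, y = τ • x - x}

variable {K} in
/-- the Hecke submodule generated by the Eichler–Shimura relation for `σ` -/
def frobRel (σ : L ≃ₐ[K] L) (ℓ : Nat.Primes) : Submodule HeckeAlg J :=
  Submodule.span HeckeAlg {y | ∃ x : J, y = σ • σ • x - heckeGen ℓ • (σ • x) + (ℓ : ℕ) • x}

/-- the largest Hecke submodule inside the kernel of an additive map -/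
def heckeKer {G : Type*} [AddCommGroup G] (φ : J →+ G) : Submodule HeckeAlg J where
  carrier := {x | ∀ t : HeckeAlg, φ (t • x) = 0}
  add_mem' := by
    intro a b ha hb t
    rw [smul_add, map_add, ha t, hb t, add_zero]
  zero_mem' := by
    intro t
    rw [smul_zero, map_zero]
  smul_mem' := by
    intro c x hx t
    rw [smul_smul]
    exact hx _

variable {J} in
theorem map_eq_zero_of_mem_heckeKer {G : Type*} [AddCommGroup G] (φ : J →+ G) {x : J}
    (hx : x ∈ heckeKer J φ) : φ x = 0 := by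
  have := hx 1
  rwa [one_smul] at this

theorem inertiaRel_le_heckeKer {G : Type*} [AddCommGroup G] (A : ValuationSubring L) (φ : J →+ G)
    (h : ∀ σ ∈ A.inertiaSubgroupIn K, ∀ x : J, φ (σ • x) = φ x) :
    inertiaRel K J A ≤ heckeKer J φ := by
  rw [inertiaRel, Submodule.span_le]
  rintro y ⟨τ, hτ, x, rfl⟩ t
  rw [smul_sub, ← smul_comm τ t x, map_sub, h τ hτ, sub_self]

variable {K} in
theorem frobRel_le_heckeKer {G : Type*} [AddCommGroup G] (σ : L ≃ₐ[K] L) (ℓ : Nat.Primes)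
    (φ : J →+ G)
    (h : ∀ x : J, φ (σ • σ • x - heckeGen ℓ • (σ • x) + (ℓ : ℕ) • x) = 0) :
    frobRel J σ ℓ ≤ heckeKer J φ := by
  rw [frobRel, Submodule.span_le]
  rintro y ⟨x, rfl⟩ t
  have e : t • (σ • σ • x - heckeGen ℓ • (σ • x) + (ℓ : ℕ) • x) =
      σ • σ • (t • x) - heckeGen ℓ • (σ • (t • x)) + (ℓ : ℕ) • (t • x) := by
    rw [smul_add, smul_sub, smul_comm t (heckeGen ℓ) (σ • x), ← smul_comm σ t (σ • x),
      ← smul_comm σ t x, smul_comm t (ℓ : ℕ) x]
  show φ _ = 0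
  rw [e]
  exact h _

theorem smul_mem_inertiaRel (A : ValuationSubring L) {σ : L ≃ₐ[K] L}
    (hσ : σ ∈ A.decompositionSubgroup K) {y : J} (hy : y ∈ inertiaRel K J A) :
    σ • y ∈ inertiaRel K J A := by
  unfold inertiaRel at hy ⊢
  induction hy using Submodule.span_induction with
  | mem y hy =>
    obtain ⟨τ, hτ, x, rfl⟩ := hy
    refine Submodule.subset_span ⟨σ * τ * σ⁻¹, conj_mem_inertiaSubgroupIn A hσ hτ, σ • x, ?_⟩
    rw [smul_sub, mul_smul, mul_smul, inv_smul_smul]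
  | zero => rw [smul_zero]; exact zero_mem _
  | add a b _ _ ha hb => rw [smul_add]; exact add_mem ha hb
  | smul t a _ ha => rw [smul_comm]; exact Submodule.smul_mem _ _ ha

variable {K} in
theorem smul_mem_frobRel (σ : L ≃ₐ[K] L) (ℓ : Nat.Primes) {y : J} (hy : y ∈ frobRel J σ ℓ) :
    σ • y ∈ frobRel J σ ℓ := by
  unfold frobRel at hy ⊢
  induction hy using Submodule.span_induction with
  | mem y hy =>
    obtain ⟨x, rfl⟩ := hy
    refine Submodule.subset_span ⟨σ • x, ?_⟩
    rw [smul_add, smul_sub, smul_comm σ (heckeGen ℓ) (σ • x), smul_comm σ (ℓ : ℕ) x]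
  | zero => rw [smul_zero]; exact zero_mem _
  | add a b _ _ ha hb => rw [smul_add]; exact add_mem ha hb
  | smul t a _ ha => rw [smul_comm]; exact Submodule.smul_mem _ _ ha

end Abstract

section Main

variable {K L : Type*} [Field K] [Field L] [Algebra K L]
variable (J : Type) [AddCommGroup J] [Module HeckeAlg J]
  [DistribMulAction (L ≃ₐ[K] L) J] [SMulCommClass (L ≃ₐ[K] L) HeckeAlg J]

/-- **Abstract reduction of `SpecializationExists`** to the existence of one additive map `φ`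
out of `J` (for each `ℓ`, `A`) which is inertia-invariant, kills the Eichler–Shimura relation of
every Frobenius element, and is injective on `p`-power torsion. -/
theorem specializationExists_of_map (N p : ℕ)
    (h : ∀ ℓ : ℕ, (hℓ : ℓ.Prime) → ¬ ℓ ∣ N * p → ∀ A : ValuationSubring L, A.LiesOverPrime ℓ →
      ∃ (G : Type) (_ : AddCommGroup G) (φ : J →+ G),
        (∀ σ ∈ A.inertiaSubgroupIn K, ∀ x : J, φ (σ • x) = φ x) ∧
        (∀ σ : L ≃ₐ[K] L, A.IsFrobeniusAt σ ℓ → ∀ x : J,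
          φ (σ • σ • x - heckeGen ⟨ℓ, hℓ⟩ • (σ • x) + ℓ • x) = 0) ∧
        (∀ x : J, (∃ n : ℕ, p ^ n • x = 0) → φ x = 0 → x = 0)) :
    SpecializationExists (K := K) (L := L) N p J := by
  intro ℓ hℓ hNp A hA
  obtain ⟨G, _, φ, h1, h2, h3⟩ := h ℓ hℓ hNp A hA
  by_cases hF : ∃ σ₀ : L ≃ₐ[K] L, A.IsFrobeniusAt σ₀ ℓ
  · obtain ⟨σ₀, hσ₀⟩ := hF
    have hσ₀D : σ₀ ∈ A.decompositionSubgroup K := hσ₀.mem_decompositionSubgroup
    let M : Submodule HeckeAlg J := inertiaRel K J A ⊔ frobRel J σ₀ ⟨ℓ, hℓ⟩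
    have hMker : M ≤ heckeKer J φ :=
      sup_le (inertiaRel_le_heckeKer K J A φ h1)
        (frobRel_le_heckeKer J σ₀ ⟨ℓ, hℓ⟩ φ (h2 σ₀ hσ₀))
    have hMσ : M ≤ M.comap (DistribSMul.toLinearMap HeckeAlg J σ₀) := by
      intro y hy
      rw [Submodule.mem_comap]
      show σ₀ • y ∈ M
      obtain ⟨a, ha, b, hb, rfl⟩ := Submodule.mem_sup.mp hy
      rw [smul_add]
      exact Submodule.add_mem_sup (smul_mem_inertiaRel K J A hσ₀D ha)
        (smul_mem_frobRel J σ₀ _ hb)
    refine ⟨J ⧸ M, inferInstance, inferInstance, M.mkQ.toAddMonoidHom,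
      (M.mapQ M (DistribSMul.toLinearMap HeckeAlg J σ₀) hMσ).toAddMonoidHom,
      ⟨?_, ?_, ?_, ?_⟩, ?_⟩
    · intro T x
      exact map_smul M.mkQ T x
    · intro τ hτ x
      show M.mkQ (τ • x) = M.mkQ x
      rw [Submodule.mkQ_apply, Submodule.mkQ_apply, Submodule.Quotient.eq]
      exact Submodule.mem_sup_left (Submodule.subset_span ⟨τ, hτ, x, rfl⟩)
    · intro σ hσ x
      show M.mkQ (σ • x) = M.mapQ M _ hMσ (M.mkQ x)
      rw [Submodule.mkQ_apply, Submodule.mkQ_apply, Submodule.mapQ_apply, Submodule.Quotient.eq]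
      show σ • x - σ₀ • x ∈ M
      refine Submodule.mem_sup_left (Submodule.subset_span
        ⟨σ * σ₀⁻¹, mul_inv_mem_inertiaSubgroupIn A hσ hσ₀, σ₀ • x, ?_⟩)
      rw [mul_smul, inv_smul_smul]
    · intro x hx hsp
      apply h3 x hx
      apply map_eq_zero_of_mem_heckeKer φ (hMker _)
      exact (Submodule.Quotient.mk_eq_zero M).mp hsp
    · intro y
      induction y using Submodule.Quotient.induction_on with
      | H x =>
        show M.mapQ M _ hMσ (M.mapQ M _ hMσ (Submodule.Quotient.mk x)) -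
          heckeGen ⟨ℓ, hℓ⟩ • M.mapQ M _ hMσ (Submodule.Quotient.mk x) +
            ℓ • (Submodule.Quotient.mk x : J ⧸ M) = 0
        rw [Submodule.mapQ_apply, Submodule.mapQ_apply, ← Submodule.Quotient.mk_smul,
          ← Submodule.Quotient.mk_sub, ← Submodule.Quotient.mk_smul, ← Submodule.Quotient.mk_add,
          Submodule.Quotient.mk_eq_zero]
        exact Submodule.mem_sup_right (Submodule.subset_span ⟨x, rfl⟩)
  · let M : Submodule HeckeAlg J := inertiaRel K J A
    have hMker : M ≤ heckeKer J φ := inertiaRel_le_heckeKer K J A φ h1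
    let F : (J ⧸ M) × (J ⧸ M) →+ (J ⧸ M) × (J ⧸ M) :=
      { toFun := fun y => (-(ℓ • y.2), y.1 + heckeGen ⟨ℓ, hℓ⟩ • y.2)
        map_zero' := by simp
        map_add' := by
          intro a b
          ext
          · simp only [Prod.snd_add, smul_add, neg_add_rev, Prod.fst_add]; abel
          · simp only [Prod.fst_add, Prod.snd_add, smul_add]; abel }
    refine ⟨(J ⧸ M) × (J ⧸ M), inferInstance, inferInstance,
      (AddMonoidHom.inl _ _).comp M.mkQ.toAddMonoidHom, F, ⟨?_, ?_, ?_, ?_⟩, ?_⟩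
    · intro T x
      show ((M.mkQ (T • x), 0) : (J ⧸ M) × (J ⧸ M)) = T • (M.mkQ x, 0)
      rw [Prod.smul_mk, smul_zero, map_smul]
    · intro τ hτ x
      show ((M.mkQ (τ • x), 0) : (J ⧸ M) × (J ⧸ M)) = (M.mkQ x, 0)
      rw [Submodule.mkQ_apply, Submodule.mkQ_apply,
        (Submodule.Quotient.eq M).mpr (Submodule.subset_span ⟨τ, hτ, x, rfl⟩)]
    · intro σ hσ
      exact absurd ⟨σ, hσ⟩ hF
    · intro x hx hsp
      apply h3 x hx
      apply map_eq_zero_of_mem_heckeKer φ (hMker _)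
      have : M.mkQ x = 0 := congrArg Prod.fst hsp
      exact (Submodule.Quotient.mk_eq_zero M).mp this
    · intro y
      obtain ⟨a, b⟩ := y
      show ((-(ℓ • (a + heckeGen ⟨ℓ, hℓ⟩ • b)), -(ℓ • b) + heckeGen ⟨ℓ, hℓ⟩ •
        (a + heckeGen ⟨ℓ, hℓ⟩ • b)) : (J ⧸ M) × (J ⧸ M)) -
          heckeGen ⟨ℓ, hℓ⟩ • (-(ℓ • b), a + heckeGen ⟨ℓ, hℓ⟩ • b) + ℓ • (a, b) = 0
      ext
      · simp only [Prod.fst_add, Prod.fst_sub, Prod.smul_fst, Prod.fst_zero, smul_add, smul_neg,
          smul_comm (heckeGen ⟨ℓ, hℓ⟩) ℓ b]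
        abel
      · simp only [Prod.snd_add, Prod.snd_sub, Prod.smul_snd, Prod.snd_zero, smul_add]
        abel

end Main

end Fermat.Agent.S37
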