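import Fermat.Prelude.Def_ModularCurve_ReductionModL

/-!
# S37: coefficientwise automorphisms of the function field mod `ℓ`

For a field `k` and a ring automorphism `τ` of `k`, `coeffMap τ` preserves
`modularFunctionFieldFullC k N` (its generators `j(q^d)` have coefficients in the prime ring), so
`τ` acts on it as a semilinear automorphism `coeffAut k N τ`, hence on places, divisors and `Pic0`
(Prelude `SemilinearAut` API).  This is the char-`ℓ` analogue of the Prelude's `arithmeticGalois`.
-/

set_option autoImplicit false

noncomputable section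

namespace Fermat.Agent.S37

open ModularCurve AlgebraicCurve HahnSeries IntermediateField

variable (k : Type*) [Field k] (N : ℕ) [NeZero N]

theorem coeffMap_mem_fullC (τ : k →+* k) {x : LaurentSeries k}
    (hx : x ∈ modularFunctionFieldFullC k N) :
    coeffMap τ x ∈ modularFunctionFieldFullC k N := by
  have hle : (modularFunctionFieldFullC k N).toSubfield ≤
      ((modularFunctionFieldFullC k N).toSubfield).comap (coeffMap τ) := by
    rw [modularFunctionFieldFullC, IntermediateField.adjoin_toSubfield, Subfield.closure_le]
    rintro y (⟨a, rfl⟩ | ⟨d, hd, hdN, rfl⟩)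
    · show coeffMap τ (algebraMap k (LaurentSeries k) a) ∈
        IntermediateField.adjoin k (divisorExpansionsC k N)
      rw [coeffMap_algebraMap]
      exact (IntermediateField.adjoin k _).algebraMap_mem _
    · have := hd
      show coeffMap τ (qExpand k d (jqModC k)) ∈ IntermediateField.adjoin k (divisorExpansionsC k N)
      rw [coeffMap_qExpand, coeffMap_jqModC]
      exact jqModCd_mem_full k N hdN
  exact hle hx

/-- the ring automorphism of `modularFunctionFieldFullC k N` induced by `τ` on coefficients -/
def coeffRingAut (τ : k ≃+* k) :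
    (modularFunctionFieldFullC k N) ≃+* (modularFunctionFieldFullC k N) where
  toFun x := ⟨coeffMap (τ : k →+* k) (x : LaurentSeries k), coeffMap_mem_fullC k N _ x.2⟩
  invFun x := ⟨coeffMap (τ.symm : k →+* k) (x : LaurentSeries k), coeffMap_mem_fullC k N _ x.2⟩
  left_inv x := Subtype.ext <| by
    show coeffMap (τ.symm : k →+* k) (coeffMap (τ : k →+* k) (x : LaurentSeries k))
      = (x : LaurentSeries k)
    rw [coeffMap_coeffMap,
      coeffMap_congr (g := RingHom.id k) (RingHom.ext fun a => τ.symm_apply_apply a)
        (x : LaurentSeries k),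
      coeffMap_id]
  right_inv x := Subtype.ext <| by
    show coeffMap (τ : k →+* k) (coeffMap (τ.symm : k →+* k) (x : LaurentSeries k))
      = (x : LaurentSeries k)
    rw [coeffMap_coeffMap,
      coeffMap_congr (g := RingHom.id k) (RingHom.ext fun a => τ.apply_symm_apply a)
        (x : LaurentSeries k),
      coeffMap_id]
  map_mul' x y :=
    Subtype.ext (map_mul (coeffMap (τ : k →+* k)) (x : LaurentSeries k) (y : LaurentSeries k))
  map_add' x y :=
    Subtype.ext (map_add (coeffMap (τ : k →+* k)) (x : LaurentSeries k) (y : LaurentSeries k))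

@[simp]
theorem coe_coeffRingAut_apply (τ : k ≃+* k) (x : modularFunctionFieldFullC k N) :
    (coeffRingAut k N τ x : LaurentSeries k) = coeffMap (τ : k →+* k) (x : LaurentSeries k) :=
  rfl

theorem coeffRingAut_algebraMap (τ : k ≃+* k) (a : k) :
    coeffRingAut k N τ (algebraMap k (modularFunctionFieldFullC k N) a)
      = algebraMap k (modularFunctionFieldFullC k N) (τ a) :=
  Subtype.ext (coeffMap_algebraMap (τ : k →+* k) a)

/-- `Aut(k)` acts on `modularFunctionFieldFullC k N` by semilinear automorphisms (coefficientwise) -/
def coeffAut : (k ≃+* k) →* SemilinearAut k (modularFunctionFieldFullC k N) where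
  toFun τ := ⟨(coeffRingAut k N τ, τ), fun a => coeffRingAut_algebraMap k N τ a⟩
  map_one' := by
    refine Subtype.ext (Prod.ext (RingEquiv.ext fun x => Subtype.ext ?_) rfl)
    show coeffMap ((1 : k ≃+* k) : k →+* k) (x : LaurentSeries k) = (x : LaurentSeries k)
    rw [show ((1 : k ≃+* k) : k →+* k) = RingHom.id k from RingHom.ext fun _ => rfl,
      coeffMap_id]
  map_mul' σ τ := by
    refine Subtype.ext (Prod.ext (RingEquiv.ext fun x => Subtype.ext ?_) rfl)
    show coeffMap ((σ * τ : k ≃+* k) : k →+* k) (x : LaurentSeries k)
      = coeffMap (σ : k →+* k) (coeffMap (τ : k →+* k) (x : LaurentSeries k))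
    rw [coeffMap_coeffMap]
    exact coeffMap_congr (RingHom.ext fun _ => rfl) _

@[simp]
theorem toRingAut_coeffAut (τ : k ≃+* k) :
    SemilinearAut.toRingAut (coeffAut k N τ) = coeffRingAut k N τ :=
  rfl

@[simp]
theorem baseAut_coeffAut (τ : k ≃+* k) :
    SemilinearAut.baseAut (coeffAut k N τ) = τ :=
  rfl

theorem coe_coeffAut_smul (τ : k ≃+* k) (x : modularFunctionFieldFullC k N) :
    ((coeffAut k N τ • x : modularFunctionFieldFullC k N) : LaurentSeries k)
      = coeffMap (τ : k →+* k) (x : LaurentSeries k) :=
  rfl

end Fermat.Agent.S37
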